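/-
FF / S19, seat FIB(c) (helper24): VALUES of functions at places of degree one.

`F / K` with `RR.IsRRField K F` (all places have degree one).

* `valueHom h P : O_P →+* K`     -- the residue map at `P` with values in `K`
* `valueAt h P f : K`            -- the value of `f` at `P` (junk `0` if `f` has a pole at `P`)
* `valueAt_eq_iff`               -- `valueAt h P f = c ↔ f = c ∨ 0 < ord_P (f - c)` for regular `f`
* `valueAt_add/sub/mul/neg/algebraMap/sum`
* `valueAt_smul`                 -- GALOIS: `valueAt (g • P) (g • f) = baseAut g (valueAt P f)` for a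
                                    semilinear automorphism `g`
-/
import Mathlib
import Fermat.Agent.MUL.Orig.Lib.RR.Basic
import Fermat.Prelude.Def_AlgebraicCurve_BaseChangeGalois
import Fermat.Agent.MUL.Orig.S13.OpenStab

set_option autoImplicit false

noncomputable section

namespace Fermat.Agent.FF

open AlgebraicCurve Fermat.Agent.RR

variable {K F : Type*} [Field K] [Field F] [Algebra K F]

/-- the residue field of a place of degree one is `K`. -/
def residueEquiv (h : IsRRField K F) (P : Place K F) : K ≃+* P.ResidueField :=
  RingEquiv.ofBijective (algebraMap K P.ResidueField)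
    ⟨(algebraMap K P.ResidueField).injective, residueField_surjective_of_isRRField h P⟩

/-- the residue map at a place (of degree one), with values in the constant field. -/
def valueHom (h : IsRRField K F) (P : Place K F) : P.toValuationSubring →+* K :=
  ((residueEquiv h P).symm : P.ResidueField →+* K).comp
    (IsLocalRing.residue P.toValuationSubring)

theorem algebraMap_valueHom (h : IsRRField K F) (P : Place K F) (a : P.toValuationSubring) :
    algebraMap K P.ResidueField (valueHom h P a) = IsLocalRing.residue P.toValuationSubring a :=
  (residueEquiv h P).apply_symm_apply _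

theorem valueHom_algebraMap (h : IsRRField K F) (P : Place K F) (c : K) :
    valueHom h P (algebraMap K P.toValuationSubring c) = c := by
  apply (algebraMap K P.ResidueField).injective
  rw [algebraMap_valueHom]
  rfl

theorem valueHom_eq_zero_iff (h : IsRRField K F) (P : Place K F) (a : P.toValuationSubring) :
    valueHom h P a = 0 ↔ a ∈ IsLocalRing.maximalIdeal P.toValuationSubring := by
  rw [← IsLocalRing.residue_eq_zero_iff, ← algebraMap_valueHom h P a]
  constructor
  · intro h0
    rw [h0, map_zero]
  · intro h0
    exact (map_eq_zero _).mp h0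

open Classical in
/-- **the value of `f` at the place `P`** (`0` if `f` has a pole at `P`). -/
def valueAt (h : IsRRField K F) (P : Place K F) (f : F) : K :=
  if hf : f ∈ P.toValuationSubring then valueHom h P ⟨f, hf⟩ else 0

theorem valueAt_of_mem (h : IsRRField K F) (P : Place K F) {f : F}
    (hf : f ∈ P.toValuationSubring) : valueAt h P f = valueHom h P ⟨f, hf⟩ := by
  unfold valueAt
  rw [dif_pos hf]

theorem valueAt_of_not_mem (h : IsRRField K F) (P : Place K F) {f : F}
    (hf : f ∉ P.toValuationSubring) : valueAt h P f = 0 := by
  unfold valueAt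
  rw [dif_neg hf]

theorem mem_of_ord_nonneg' (P : Place K F) {f : F} (hf : 0 ≤ P.ord f) :
    f ∈ P.toValuationSubring :=
  Fermat.Agent.S24Res.mem_of_ord_nonneg P hf

@[simp]
theorem valueAt_algebraMap (h : IsRRField K F) (P : Place K F) (c : K) :
    valueAt h P (algebraMap K F c) = c := by
  rw [valueAt_of_mem h P (P.algebraMap_mem' c)]
  exact valueHom_algebraMap h P c

@[simp]
theorem valueAt_zero (h : IsRRField K F) (P : Place K F) : valueAt h P 0 = 0 := by
  rw [valueAt_of_mem h P (zero_mem _)]
  exact map_zero (valueHom h P)

@[simp]
theorem valueAt_one (h : IsRRField K F) (P : Place K F) : valueAt h P 1 = 1 := by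
  rw [valueAt_of_mem h P (one_mem _)]
  exact map_one (valueHom h P)

theorem valueAt_add (h : IsRRField K F) (P : Place K F) {f g : F}
    (hf : f ∈ P.toValuationSubring) (hg : g ∈ P.toValuationSubring) :
    valueAt h P (f + g) = valueAt h P f + valueAt h P g := by
  rw [valueAt_of_mem h P hf, valueAt_of_mem h P hg, valueAt_of_mem h P (add_mem hf hg),
    ← map_add]
  rfl

theorem valueAt_mul (h : IsRRField K F) (P : Place K F) {f g : F}
    (hf : f ∈ P.toValuationSubring) (hg : g ∈ P.toValuationSubring) :
    valueAt h P (f * g) = valueAt h P f * valueAt h P g := by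
  rw [valueAt_of_mem h P hf, valueAt_of_mem h P hg, valueAt_of_mem h P (mul_mem hf hg),
    ← map_mul]
  rfl

theorem valueAt_neg (h : IsRRField K F) (P : Place K F) (f : F) :
    valueAt h P (-f) = -valueAt h P f := by
  by_cases hf : f ∈ P.toValuationSubring
  · rw [valueAt_of_mem h P hf, valueAt_of_mem h P (neg_mem hf), ← map_neg]
    rfl
  · rw [valueAt_of_not_mem h P hf, valueAt_of_not_mem h P (fun hh => hf (by simpa using neg_mem hh)),
      neg_zero]

theorem valueAt_sub (h : IsRRField K F) (P : Place K F) {f g : F}
    (hf : f ∈ P.toValuationSubring) (hg : g ∈ P.toValuationSubring) :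
    valueAt h P (f - g) = valueAt h P f - valueAt h P g := by
  rw [sub_eq_add_neg, valueAt_add h P hf (neg_mem hg), valueAt_neg, sub_eq_add_neg]

theorem valueAt_smul_const (h : IsRRField K F) (P : Place K F) (c : K) {f : F}
    (hf : f ∈ P.toValuationSubring) : valueAt h P (c • f) = c * valueAt h P f := by
  rw [Algebra.smul_def, valueAt_mul h P (P.algebraMap_mem' c) hf, valueAt_algebraMap]

theorem valueAt_sum (h : IsRRField K F) (P : Place K F) {ι : Type*} (s : Finset ι) (f : ι → F)
    (hf : ∀ i ∈ s, f i ∈ P.toValuationSubring) :
    valueAt h P (∑ i ∈ s, f i) = ∑ i ∈ s, valueAt h P (f i) := by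
  classical
  induction s using Finset.induction_on with
  | empty => simp
  | insert a s ha ih =>
    rw [Finset.sum_insert ha, Finset.sum_insert ha,
      valueAt_add h P (hf a (Finset.mem_insert_self a s))
        (Subring.sum_mem _ fun i hi => hf i (Finset.mem_insert_of_mem hi)),
      ih fun i hi => hf i (Finset.mem_insert_of_mem hi)]

/-- the value `0`: `f` is in the maximal ideal. -/
theorem valueAt_eq_zero_iff (h : IsRRField K F) (P : Place K F) {f : F}
    (hf : f ∈ P.toValuationSubring) :
    valueAt h P f = 0 ↔ f = 0 ∨ 0 < P.ord f := by
  rw [valueAt_of_mem h P hf, valueHom_eq_zero_iff]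
  constructor
  · intro hm
    by_cases h0 : f = 0
    · exact Or.inl h0
    · right
      have hne : (⟨f, hf⟩ : P.toValuationSubring) ≠ 0 := fun hh => h0 (congrArg Subtype.val hh)
      exact (Fermat.Agent.S24Res.mem_maximalIdeal_iff_ord_pos P hne).mp hm
  · rintro (h0 | h0)
    · subst h0
      exact zero_mem _
    · have hne : (⟨f, hf⟩ : P.toValuationSubring) ≠ 0 := by
        intro hh
        have : f = 0 := congrArg Subtype.val hh
        rw [this, P.ord_zero] at h0
        exact lt_irrefl _ h0
      exact (Fermat.Agent.S24Res.mem_maximalIdeal_iff_ord_pos P hne).mpr h0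

/-- characterisation of the value of a regular function. -/
theorem valueAt_eq_iff (h : IsRRField K F) (P : Place K F) {f : F}
    (hf : f ∈ P.toValuationSubring) (c : K) :
    valueAt h P f = c ↔ f = algebraMap K F c ∨ 0 < P.ord (f - algebraMap K F c) := by
  have h1 := valueAt_eq_zero_iff h P (sub_mem hf (P.algebraMap_mem' c))
  rw [valueAt_sub h P hf (P.algebraMap_mem' c), valueAt_algebraMap, sub_eq_zero, sub_eq_zero] at h1
  exact h1

/-- the value of a regular function, specification. -/
theorem valueAt_spec (h : IsRRField K F) (P : Place K F) {f : F}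
    (hf : f ∈ P.toValuationSubring) :
    f = algebraMap K F (valueAt h P f) ∨ 0 < P.ord (f - algebraMap K F (valueAt h P f)) :=
  (valueAt_eq_iff h P hf _).mp rfl

/-- a zero of `f - c` gives the value `c`. -/
theorem valueAt_eq_of_ord_pos (h : IsRRField K F) (P : Place K F) {f : F} {c : K}
    (hc : 0 < P.ord (f - algebraMap K F c)) : valueAt h P f = c := by
  have hm : f - algebraMap K F c ∈ P.toValuationSubring := mem_of_ord_nonneg' P hc.le
  have hf : f ∈ P.toValuationSubring := by
    have := add_mem hm (P.algebraMap_mem' c)
    rwa [sub_add_cancel] at this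
  exact (valueAt_eq_iff h P hf c).mpr (Or.inr hc)

/-- two values at the same place of the same function. -/
theorem valueAt_ne_of_ord_pos (h : IsRRField K F) (P : Place K F) {f : F} {c c' : K}
    (hc : 0 < P.ord (f - algebraMap K F c)) (hc' : 0 < P.ord (f - algebraMap K F c')) :
    c = c' := by
  rw [← valueAt_eq_of_ord_pos h P hc, ← valueAt_eq_of_ord_pos h P hc']

/-! ### Galois equivariance -/

open scoped Pointwise in
/-- **equivariance of values** under a semilinear automorphism. -/
theorem valueAt_smul (h : IsRRField K F) (g : SemilinearAut K F) (P : Place K F) (f : F) :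
    valueAt h (g • P) (g • f) = SemilinearAut.baseAut g (valueAt h P f) := by
  by_cases hf : f ∈ P.toValuationSubring
  · have hgf : g • f ∈ (g • P).toValuationSubring := by
      rw [SemilinearAut.smul_toValuationSubring]
      exact ValuationSubring.smul_mem_pointwise_smul g f _ hf
    rw [valueAt_eq_iff h (g • P) hgf]
    rcases valueAt_spec h P hf with h1 | h1
    · left
      conv_lhs => rw [h1]
      exact SemilinearAut.smul_algebraMap g _
    · right
      have h2 : g • f - algebraMap K F (SemilinearAut.baseAut g (valueAt h P f))
          = g • (f - algebraMap K F (valueAt h P f)) := by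
        rw [smul_sub, SemilinearAut.smul_algebraMap]
      rw [h2, SemilinearAut.ord_smul]
      exact h1
  · have hgf : g • f ∉ (g • P).toValuationSubring := by
      rw [SemilinearAut.smul_toValuationSubring]
      intro hh
      apply hf
      have := (ValuationSubring.mem_pointwise_smul_iff_inv_smul_mem (g := g)
        (S := P.toValuationSubring) (x := g • f)).mp hh
      rwa [inv_smul_smul] at this
    rw [valueAt_of_not_mem h P hf, valueAt_of_not_mem h (g • P) hgf, map_zero]

/-- equivariance of values for an invariant function. -/
theorem valueAt_smul_of_fixed (h : IsRRField K F) (g : SemilinearAut K F) (P : Place K F)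
    {f : F} (hf : g • f = f) :
    valueAt h (g • P) f = SemilinearAut.baseAut g (valueAt h P f) := by
  conv_lhs => rw [← hf]
  exact valueAt_smul h g P f

end Fermat.Agent.FF
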