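import Mathlib
import Fermat.Agent.MUL.Orig.Lib.FF.KMRank
import Fermat.Agent.MUL.Orig.Lib.FF.KMRingDefs
import Fermat.Agent.MUL.Orig.Lib.FF.FormalDefs

/-!
# FF / S19, route R-G, seat K: the matrices of the Khuri-Makdisi steps (helper2)

For `d : KMData R ..` we define the matrices

* `d.Φ₂` : kernel ≅ `d.cross`                       (step S2),
* `d.Φ₃ Ξ` : range = `d.Y` if `range Ξ = ker d.Φ₂`   (step S3),
* `d.Φ₄ Q` : kernel = `d.W₃` if `ker Q = d.Y`        (step S4),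

and prove their compatibility with base change.
-/

set_option autoImplicit false
set_option linter.unusedSectionVars false

open Matrix

namespace Fermat.Agent.KMRing

variable {R : Type*} {S : Type*} [CommRing R] [CommRing S] {n₁ n₂ n₄ rx ry e₁ e₂ : ℕ}

namespace KMData

variable (d : KMData R n₁ n₂ n₄ rx ry e₁ e₂)

/-! ### base change of the multiplications -/

theorem map_mul₁ (f : R →+* S) (v w : Fin n₁ → R) (k : Fin n₂) :
    (d.map f).mul₁ (fun i => f (v i)) (fun i => f (w i)) k = f (d.mul₁ v w k) := by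
  simp only [mul₁_apply, map_sum, map_mul]
  rfl

theorem map_u (f : R →+* S) (α : Fin rx × Fin ry) (j : Fin n₂) :
    (d.map f).u α j = f (d.u α j) := by
  unfold u
  rw [← map_mul₁]
  rfl

/-! ### step (S2) -/

/-- the matrix of `ζ ↦ (E₂ ζ) * u β`. -/
def N (β : Fin rx × Fin ry) : Matrix (Fin n₄) (Fin e₂) R :=
  Matrix.of fun k c => ∑ i, ∑ j, d.m₂ i j k * d.E₂ i c * d.u β j

theorem N_mulVec (β : Fin rx × Fin ry) (ζ : Fin e₂ → R) :
    d.N β *ᵥ ζ = d.mul₂ (d.E₂ *ᵥ ζ) (d.u β) := by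
  funext k
  simp only [Matrix.mulVec, dotProduct, N, Matrix.of_apply, mul₂_apply, Finset.sum_mul,
    Finset.mul_sum]
  rw [Finset.sum_comm]
  refine Finset.sum_congr rfl fun i _ => ?_
  rw [Finset.sum_comm]
  refine Finset.sum_congr rfl fun j _ => ?_
  refine Finset.sum_congr rfl fun c _ => ?_
  ring

/-- the matrix of step (S2). -/
def Φ₂ : Matrix (((Fin rx × Fin ry) × (Fin rx × Fin ry)) × Fin n₄)
    ((Fin rx × Fin ry) × Fin e₂) R :=
  Matrix.of fun p q => (if q.1 = p.1.1 then d.N p.1.2 p.2 q.2 else 0) -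
    (if q.1 = p.1.2 then d.N p.1.1 p.2 q.2 else 0)

/-- the coordinates `ζ ↦ z`, `z α = E₂ ζ_α`. -/
def toZ (ζ : (Fin rx × Fin ry) × Fin e₂ → R) : Fin rx × Fin ry → Fin n₂ → R :=
  fun α => d.E₂ *ᵥ fun c => ζ (α, c)

theorem Φ₂_mulVec (ζ : (Fin rx × Fin ry) × Fin e₂ → R) (α β : Fin rx × Fin ry) (k : Fin n₄) :
    (d.Φ₂ *ᵥ ζ) ((α, β), k) =
      d.mul₂ (d.toZ ζ α) (d.u β) k - d.mul₂ (d.toZ ζ β) (d.u α) k := by
  unfold toZ
  rw [← N_mulVec, ← N_mulVec]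
  have h1 : ∀ (α' β' : Fin rx × Fin ry),
      (∑ q : (Fin rx × Fin ry) × Fin e₂, (if q.1 = α' then d.N β' k q.2 else 0) * ζ q) =
        ∑ c, d.N β' k c * ζ (α', c) := by
    intro α' β'
    rw [Fintype.sum_prod_type, Finset.sum_eq_single α']
    · simp
    · intro γ _ hγ
      simp [hγ]
    · simp
  simp only [Matrix.mulVec, dotProduct, Φ₂, Matrix.of_apply, sub_mul, Finset.sum_sub_distrib]
  rw [h1, h1]

theorem toZ_mem_X (ζ : (Fin rx × Fin ry) × Fin e₂ → R) (α : Fin rx × Fin ry) :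
    d.toZ ζ α ∈ d.X :=
  ⟨fun c => ζ (α, c), rfl⟩

theorem mem_ker_Φ₂_iff (ζ : (Fin rx × Fin ry) × Fin e₂ → R) :
    ζ ∈ LinearMap.ker d.Φ₂.mulVecLin ↔ d.toZ ζ ∈ d.cross := by
  rw [LinearMap.mem_ker, Matrix.mulVecLin_apply, mem_cross]
  constructor
  · intro h
    refine ⟨fun α => d.toZ_mem_X ζ α, fun α β => ?_⟩
    funext k
    have := congrFun h ((α, β), k)
    rw [Φ₂_mulVec, Pi.zero_apply, sub_eq_zero] at this
    exact this
  · rintro ⟨-, h⟩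
    funext p
    obtain ⟨⟨α, β⟩, k⟩ := p
    rw [Φ₂_mulVec, Pi.zero_apply, sub_eq_zero, h α β]

theorem exists_toZ_eq {z : Fin rx × Fin ry → Fin n₂ → R} (hz : z ∈ d.cross) :
    ∃ ζ, d.toZ ζ = z := by
  have h : ∀ α, ∃ ζ' : Fin e₂ → R, d.E₂ *ᵥ ζ' = z α := fun α => hz.1 α
  choose ζ' hζ' using h
  refine ⟨fun q => ζ' q.1 q.2, ?_⟩
  funext α
  exact hζ' α

/-- `toZ` as a linear map. -/
def toZₗ : ((Fin rx × Fin ry) × Fin e₂ → R) →ₗ[R] (Fin rx × Fin ry → Fin n₂ → R) where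
  toFun := d.toZ
  map_add' := by
    intro ζ ζ'
    funext α
    unfold toZ
    rw [Pi.add_apply, ← Matrix.mulVec_add]
    rfl
  map_smul' := by
    intro c ζ
    funext α
    unfold toZ
    rw [Pi.smul_apply, ← Matrix.mulVec_smul]
    rfl

theorem toZₗ_apply (ζ : (Fin rx × Fin ry) × Fin e₂ → R) : d.toZₗ ζ = d.toZ ζ := rfl

theorem toZₗ_injective (hL : ∃ L : Matrix (Fin e₂) (Fin n₂) R, L * d.E₂ = 1) :
    Function.Injective d.toZₗ := by
  obtain ⟨L, hL⟩ := hL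
  intro ζ ζ' h
  funext q
  obtain ⟨α, c⟩ := q
  have h1 : d.E₂ *ᵥ (fun c => ζ (α, c)) = d.E₂ *ᵥ (fun c => ζ' (α, c)) := congrFun h α
  have h2 := congrArg (fun v => L *ᵥ v) h1
  simp only [Matrix.mulVec_mulVec, hL, Matrix.one_mulVec] at h2
  exact congrFun h2 c

theorem map_ker_Φ₂ : (LinearMap.ker d.Φ₂.mulVecLin).map d.toZₗ = d.cross := by
  apply le_antisymm
  · rintro _ ⟨ζ, hζ, rfl⟩
    exact (d.mem_ker_Φ₂_iff ζ).mp hζ
  · intro z hz
    obtain ⟨ζ, rfl⟩ := d.exists_toZ_eq hz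
    exact ⟨ζ, (d.mem_ker_Φ₂_iff ζ).mpr hz, rfl⟩

/-! ### step (S3) -/

/-- the matrix of step (S3); its columns are the components of the columns of `Ξ`. -/
def Φ₃ (Ξ : Matrix ((Fin rx × Fin ry) × Fin e₂) ((Fin rx × Fin ry) × Fin e₂) R) :
    Matrix (Fin n₂) (((Fin rx × Fin ry) × Fin e₂) × (Fin rx × Fin ry)) R :=
  Matrix.of fun i q => ∑ c, d.E₂ i c * Ξ (q.2, c) q.1

theorem Φ₃_col (Ξ : Matrix ((Fin rx × Fin ry) × Fin e₂) ((Fin rx × Fin ry) × Fin e₂) R)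
    (j : (Fin rx × Fin ry) × Fin e₂) (α : Fin rx × Fin ry) :
    (d.Φ₃ Ξ).col (j, α) = d.toZ (Ξ.col j) α := by
  funext i
  simp [Φ₃, toZ, Matrix.mulVec, dotProduct, Matrix.col_apply]

theorem toZ_mulVec (Ξ : Matrix ((Fin rx × Fin ry) × Fin e₂) ((Fin rx × Fin ry) × Fin e₂) R)
    (w : (Fin rx × Fin ry) × Fin e₂ → R) (α : Fin rx × Fin ry) :
    d.toZ (Ξ *ᵥ w) α = ∑ j, w j • (d.Φ₃ Ξ).col (j, α) := by
  funext i
  simp only [toZ, Matrix.mulVec, dotProduct, Φ₃, Matrix.col_apply, Matrix.of_apply,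
    Finset.sum_apply, Pi.smul_apply, smul_eq_mul, Finset.mul_sum]
  rw [Finset.sum_comm]
  refine Finset.sum_congr rfl fun j _ => Finset.sum_congr rfl fun c _ => ?_
  ring

theorem range_Φ₃ (Ξ : Matrix ((Fin rx × Fin ry) × Fin e₂) ((Fin rx × Fin ry) × Fin e₂) R)
    (hΞ : LinearMap.range Ξ.mulVecLin = LinearMap.ker d.Φ₂.mulVecLin) :
    LinearMap.range (d.Φ₃ Ξ).mulVecLin = d.Y := by
  classical
  rw [Matrix.range_mulVecLin]
  apply le_antisymm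
  · rw [Submodule.span_le]
    rintro _ ⟨⟨j, α⟩, rfl⟩
    apply Submodule.subset_span
    refine ⟨d.toZ (Ξ.col j), ?_, α, d.Φ₃_col Ξ j α⟩
    rw [← mem_ker_Φ₂_iff, ← hΞ]
    refine ⟨Pi.single j 1, ?_⟩
    rw [Matrix.mulVecLin_apply, Matrix.mulVec_single_one]
  · unfold Y
    rw [Submodule.span_le]
    rintro _ ⟨z, hz, α, rfl⟩
    obtain ⟨ζ, rfl⟩ := d.exists_toZ_eq hz
    have hζ : ζ ∈ LinearMap.range Ξ.mulVecLin := by
      rw [hΞ]
      exact (d.mem_ker_Φ₂_iff ζ).mpr hz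
    obtain ⟨w, rfl⟩ := hζ
    rw [Matrix.mulVecLin_apply, SetLike.mem_coe, toZ_mulVec]
    exact Submodule.sum_mem _ fun j _ => Submodule.smul_mem _ _ (Submodule.subset_span ⟨_, rfl⟩)

/-! ### step (S4) -/

/-- the matrix of step (S4). -/
def Φ₄ (Q : Matrix (Fin n₂) (Fin n₂) R) : Matrix (Fin e₁ × Fin n₂) (Fin n₁) R :=
  Matrix.of fun p a => ∑ l, Q p.2 l * ∑ b, d.m₁ a b l * d.E₁ b p.1

theorem Φ₄_mulVec (Q : Matrix (Fin n₂) (Fin n₂) R) (s : Fin n₁ → R) (i : Fin e₁) (k : Fin n₂) :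
    (d.Φ₄ Q *ᵥ s) (i, k) = (Q *ᵥ d.mul₁ s (fun b => d.E₁ b i)) k := by
  simp only [Matrix.mulVec, dotProduct, Φ₄, Matrix.of_apply, mul₁_apply, Finset.sum_mul,
    Finset.mul_sum]
  rw [Finset.sum_comm]
  refine Finset.sum_congr rfl fun l _ => ?_
  refine Finset.sum_congr rfl fun a _ => ?_
  refine Finset.sum_congr rfl fun b _ => ?_
  ring

theorem ker_Φ₄ (Q : Matrix (Fin n₂) (Fin n₂) R) (hQ : LinearMap.ker Q.mulVecLin = d.Y) :
    LinearMap.ker (d.Φ₄ Q).mulVecLin = d.W₃ := by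
  ext s
  rw [LinearMap.mem_ker, Matrix.mulVecLin_apply, mem_W₃]
  constructor
  · intro h i
    rw [← hQ, LinearMap.mem_ker, Matrix.mulVecLin_apply]
    funext k
    rw [← Φ₄_mulVec, h]
    rfl
  · intro h
    funext p
    obtain ⟨i, k⟩ := p
    have hi := h i
    rw [← hQ, LinearMap.mem_ker, Matrix.mulVecLin_apply] at hi
    rw [Φ₄_mulVec, hi]
    rfl

/-! ### base change -/

theorem map_N (f : R →+* S) (β : Fin rx × Fin ry) : (d.N β).map f = (d.map f).N β := by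
  ext k c
  simp only [Matrix.map_apply, N, Matrix.of_apply, map_sum, map_mul, map_u]
  rfl

theorem map_Φ₂ (f : R →+* S) : d.Φ₂.map f = (d.map f).Φ₂ := by
  ext p q
  simp only [Matrix.map_apply, Φ₂, Matrix.of_apply, map_sub, apply_ite f, map_zero, ← map_N]

theorem map_Φ₃ (f : R →+* S)
    (Ξ : Matrix ((Fin rx × Fin ry) × Fin e₂) ((Fin rx × Fin ry) × Fin e₂) R) :
    (d.Φ₃ Ξ).map f = (d.map f).Φ₃ (Ξ.map f) := by
  ext i q
  simp only [Matrix.map_apply, Φ₃, Matrix.of_apply, map_sum, map_mul]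
  rfl

theorem map_Φ₄ (f : R →+* S) (Q : Matrix (Fin n₂) (Fin n₂) R) :
    (d.Φ₄ Q).map f = (d.map f).Φ₄ (Q.map f) := by
  ext p a
  simp only [Matrix.map_apply, Φ₄, Matrix.of_apply, map_sum, map_mul]
  rfl

theorem map_leftInv (f : R →+* S) (hL : ∃ L : Matrix (Fin e₂) (Fin n₂) R, L * d.E₂ = 1) :
    ∃ L : Matrix (Fin e₂) (Fin n₂) S, L * (d.map f).E₂ = 1 := by
  obtain ⟨L, hL⟩ := hL
  refine ⟨L.map f, ?_⟩
  have : (d.map f).E₂ = d.E₂.map f := rfl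
  rw [this, ← Matrix.map_mul, hL]
  ext i j
  simp [Matrix.map_apply, Matrix.one_apply, apply_ite f]

end KMData

end Fermat.Agent.KMRing
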