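import Mathlib
import Fermat.Agent.MUL.Orig.Lib.FF.KMRingDefs
import Fermat.Agent.MUL.Orig.Lib.FF.KMSteps
import Fermat.Agent.MUL.Lib.FF.GeomEch

/-!
# FF / S19, route R-G, seat K'': `KMGood` is invariant under isomorphisms of fields (helper2)

* `KMData.map_mem_X`, `map_mem_cross`, `map_mem_Y`, `map_mem_W₃` : the pointwise Khuri-Makdisi
  spaces are carried into each other by the coefficientwise map of any ring homomorphism;
* `KMGood.map_ringEquiv` : for a ring isomorphism `e : K ≃+* K'` of fields,
  `KMGood d ρ I₀ → KMGood (d.map e) ρ I₀`.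
-/

set_option autoImplicit false
set_option linter.unusedSectionVars false

open Matrix

namespace Fermat.Agent.KMRing

variable {R : Type*} {S : Type*} [CommRing R] [CommRing S] {n₁ n₂ n₄ rx ry e₁ e₂ : ℕ}

namespace KMData

variable (d : KMData R n₁ n₂ n₄ rx ry e₁ e₂) (f : R →+* S)

theorem map_mul₂ (v w : Fin n₂ → R) (k : Fin n₄) :
    (d.map f).mul₂ (fun i => f (v i)) (fun i => f (w i)) k = f (d.mul₂ v w k) := by
  simp only [mul₂_apply, map_sum, map_mul]
  rfl

theorem map_mul₁' (v w : Fin n₁ → R) :
    (d.map f).mul₁ (fun i => f (v i)) (fun i => f (w i)) = fun k => f (d.mul₁ v w k) :=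
  funext fun k => d.map_mul₁ f v w k

theorem map_mul₂' (v w : Fin n₂ → R) :
    (d.map f).mul₂ (fun i => f (v i)) (fun i => f (w i)) = fun k => f (d.mul₂ v w k) :=
  funext fun k => d.map_mul₂ f v w k

theorem map_u' (α : Fin rx × Fin ry) : (d.map f).u α = fun j => f (d.u α j) :=
  funext fun j => d.map_u f α j

theorem map_mem_X {v : Fin n₂ → R} (hv : v ∈ d.X) : (fun i => f (v i)) ∈ (d.map f).X := by
  obtain ⟨ζ, rfl⟩ := hv
  refine ⟨fun c => f (ζ c), ?_⟩
  funext i
  simp only [Matrix.mulVecLin_apply, Matrix.mulVec, dotProduct, map_sum, map_mul]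
  rfl

theorem map_mem_cross {z : Fin rx × Fin ry → Fin n₂ → R} (hz : z ∈ d.cross) :
    (fun α i => f (z α i)) ∈ (d.map f).cross := by
  refine ⟨fun α => d.map_mem_X f (hz.1 α), fun α β => ?_⟩
  rw [map_u', map_u', map_mul₂', map_mul₂', hz.2 α β]

theorem map_mem_Y {v : Fin n₂ → R} (hv : v ∈ d.Y) : (fun i => f (v i)) ∈ (d.map f).Y := by
  unfold Y at hv
  induction hv using Submodule.span_induction with
  | mem v hv =>
    obtain ⟨z, hz, α, rfl⟩ := hv
    exact Submodule.subset_span ⟨_, d.map_mem_cross f hz, α, rfl⟩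
  | zero =>
    have : (fun i => f ((0 : Fin n₂ → R) i)) = 0 := by
      funext i
      simp
    rw [this]
    exact Submodule.zero_mem _
  | add v w _ _ hv hw =>
    have : (fun i => f ((v + w) i)) = (fun i => f (v i)) + fun i => f (w i) := by
      funext i
      simp
    rw [this]
    exact Submodule.add_mem _ hv hw
  | smul c v _ hv =>
    have : (fun i => f ((c • v) i)) = f c • fun i => f (v i) := by
      funext i
      simp
    rw [this]
    exact Submodule.smul_mem _ _ hv

theorem map_mem_W₃ {s : Fin n₁ → R} (hs : s ∈ d.W₃) : (fun i => f (s i)) ∈ (d.map f).W₃ := by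
  intro i
  have h := d.map_mem_Y f (hs i)
  rw [← map_mul₁'] at h
  exact h

theorem map_map {T : Type*} [CommRing T] (g : S →+* T) : (d.map f).map g = d.map (g.comp f) :=
  rfl

theorem map_symm_map {K K' : Type*} [Field K] [Field K'] (e : K ≃+* K')
    (d : KMData K n₁ n₂ n₄ rx ry e₁ e₂) :
    (d.map (e : K →+* K')).map (e.symm : K' →+* K) = d := by
  rw [map_map]
  obtain ⟨m₁, m₂, Γx, Γy, E₁, E₂⟩ := d
  simp only [map, RingHom.comp_apply, RingEquiv.coe_toRingHom, RingEquiv.symm_apply_apply]
  congr 1 <;> ext i j <;> simp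

end KMData

section Semilinear

variable {K K' : Type*} [Field K] [Field K']

/-- a semilinear additive equivalence preserves `finrank`. -/
theorem finrank_eq_of_semilinear {M M' : Type*} [AddCommGroup M] [Module K M] [AddCommGroup M']
    [Module K' M'] (e : K ≃+* K') (j : M ≃+ M') (hc : ∀ (r : K) (m : M), j (r • m) = e r • j m) :
    Module.finrank K M = Module.finrank K' M' := by
  have h := lift_rank_eq_of_equiv_equiv (⇑e) j e.bijective hc
  unfold Module.finrank
  rw [← Cardinal.toNat_lift, h, Cardinal.toNat_lift]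

/-- submodules corresponding under a semilinear additive equivalence have the same `finrank`. -/
theorem finrank_eq_of_maps {V V' : Type*} [AddCommGroup V] [Module K V] [AddCommGroup V']
    [Module K' V'] (e : K ≃+* K') (J : V ≃+ V') (hJ : ∀ (r : K) (v : V), J (r • v) = e r • J v)
    (P : Submodule K V) (P' : Submodule K' V') (h1 : ∀ v ∈ P, J v ∈ P')
    (h2 : ∀ v' ∈ P', J.symm v' ∈ P) : Module.finrank K P = Module.finrank K' P' := by
  refine finrank_eq_of_semilinear e
    { toFun := fun v => ⟨J v.1, h1 v.1 v.2⟩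
      invFun := fun v' => ⟨J.symm v'.1, h2 v'.1 v'.2⟩
      left_inv := fun v => Subtype.ext (J.symm_apply_apply v.1)
      right_inv := fun v' => Subtype.ext (J.apply_symm_apply v'.1)
      map_add' := fun v w => Subtype.ext (map_add J v.1 w.1) } ?_
  intro r m
  exact Subtype.ext (hJ r m.1)

/-- the coefficientwise map on vectors. -/
def vecEquiv (e : K ≃+* K') (ι : Type*) : (ι → K) ≃+ (ι → K') :=
  AddEquiv.piCongrRight fun _ => e.toAddEquiv

@[simp] theorem vecEquiv_apply (e : K ≃+* K') (ι : Type*) (v : ι → K) :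
    vecEquiv e ι v = fun i => e (v i) := rfl

@[simp] theorem vecEquiv_symm_apply (e : K ≃+* K') (ι : Type*) (v : ι → K') :
    (vecEquiv e ι).symm v = fun i => e.symm (v i) := rfl

/-- the coefficientwise map on families of vectors. -/
def vecEquiv₂ (e : K ≃+* K') (α ι : Type*) : (α → ι → K) ≃+ (α → ι → K') :=
  AddEquiv.piCongrRight fun _ => vecEquiv e ι

@[simp] theorem vecEquiv₂_apply (e : K ≃+* K') (α ι : Type*) (z : α → ι → K) :
    vecEquiv₂ e α ι z = fun a i => e (z a i) := rfl

@[simp] theorem vecEquiv₂_symm_apply (e : K ≃+* K') (α ι : Type*) (z : α → ι → K') :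
    (vecEquiv₂ e α ι).symm z = fun a i => e.symm (z a i) := rfl

end Semilinear

/-- **`KMGood` is invariant under isomorphisms of fields** (seat K''). -/
theorem KMGood.map_ringEquiv {K K' : Type*} [Field K] [Field K'] (e : K ≃+* K')
    {d : KMData K n₁ n₂ n₄ rx ry e₁ e₂} {ρ r₃ : ℕ} {I₀ : Fin r₃ → Fin n₁}
    (h : KMGood d ρ I₀) : KMGood (d.map (e : K →+* K')) ρ I₀ := by
  have hsymm := KMData.map_symm_map e d
  refine ⟨?_, ?_, ?_, ?_⟩
  · rw [← h.finrank_cross]
    symm
    refine finrank_eq_of_maps e (vecEquiv₂ e _ _) ?_ _ _ ?_ ?_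
    · intro r v
      funext a i
      simp
    · intro v hv
      exact d.map_mem_cross (e : K →+* K') hv
    · intro v' hv'
      have := (d.map (e : K →+* K')).map_mem_cross (e.symm : K' →+* K) hv'
      rw [hsymm] at this
      exact this
  · rw [← h.finrank_Y]
    symm
    refine finrank_eq_of_maps e (vecEquiv e _) ?_ _ _ ?_ ?_
    · intro r v
      funext i
      simp
    · intro v hv
      exact d.map_mem_Y (e : K →+* K') hv
    · intro v' hv'
      have := (d.map (e : K →+* K')).map_mem_Y (e.symm : K' →+* K) hv'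
      rw [hsymm] at this
      exact this
  · rw [← h.finrank_W₃]
    symm
    refine finrank_eq_of_maps e (vecEquiv e _) ?_ _ _ ?_ ?_
    · intro r v
      funext i
      simp
    · intro v hv
      exact d.map_mem_W₃ (e : K →+* K') hv
    · intro v' hv'
      have := (d.map (e : K →+* K')).map_mem_W₃ (e.symm : K' →+* K) hv'
      rw [hsymm] at this
      exact this
  · intro s hs h0
    have hs' := (d.map (e : K →+* K')).map_mem_W₃ (e.symm : K' →+* K) hs
    rw [hsymm] at hs'
    have := h.chart _ hs' (fun i => by simp [h0 i])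
    funext i
    have hi := congrFun this i
    simp only [Pi.zero_apply] at hi
    exact (map_eq_zero_iff e.symm e.symm.injective).mp hi

end Fermat.Agent.KMRing
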